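import Mathlib
import Fermat.Agent.ProgramR.Counting.Scott

/-!
# Dimension bound for "parabolic" homomorphisms of a finite index subgroup (S21, group theory)

`G` a group generated by `x₁, x₂` with `x₁ x₂ x₃ = 1`, `Γ ≤ G` of finite index, `X = G ⧸ Γ`,
`k` a field of characteristic zero, `Par` a conjugation invariant predicate on `G` such that some
power `xᵢ ^ nᵢ` acts trivially on `X` and satisfies `Par`.  Then the space `H` of homomorphisms
`ψ : Γ → k` vanishing on `Γ ∩ Par` is finite dimensional and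
`dim H + cyc x₁ + cyc x₂ + cyc x₃ ≤ |X| + 2`
(Shapiro's lemma made explicit: `ψ ↦` the cocycle `c_ψ : G → (X → k)`, whose values on
`x₁, x₂, x₃` form a cycle of the Scott complex, well defined and injective modulo boundaries).
-/

set_option autoImplicit false

namespace Fermat.Agent.ProgramR.ES

open Module Fermat.Agent.ProgramR.Genus

section General

variable {G : Type*} [Group G] (Γ : Subgroup G)

/-- Coset representatives. -/
noncomputable def rep (x : G ⧸ Γ) : G := Quotient.out x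

lemma mk_rep (x : G ⧸ Γ) : (QuotientGroup.mk (rep Γ x) : G ⧸ Γ) = x :=
  QuotientGroup.out_eq' x

lemma smul_mk_eq (g h : G) : g • (QuotientGroup.mk h : G ⧸ Γ) = QuotientGroup.mk (g * h) := rfl

lemma cocElt_mem (g : G) (x : G ⧸ Γ) : (rep Γ x)⁻¹ * g * rep Γ (g⁻¹ • x) ∈ Γ := by
  have h1 : (QuotientGroup.mk (g * rep Γ (g⁻¹ • x)) : G ⧸ Γ) = QuotientGroup.mk (rep Γ x) := by
    rw [← smul_mk_eq, mk_rep, mk_rep, smul_inv_smul]
  have h2 := QuotientGroup.eq.mp h1.symm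
  rwa [← mul_assoc] at h2

/-- The element `(rep x)⁻¹ g rep(g⁻¹ x)` of `Γ`. -/
noncomputable def cocElt (g : G) (x : G ⧸ Γ) : Γ := ⟨_, cocElt_mem Γ g x⟩

lemma cocElt_mul (g h : G) (x : G ⧸ Γ) :
    cocElt Γ (g * h) x = cocElt Γ g x * cocElt Γ h (g⁻¹ • x) := by
  apply Subtype.ext
  show (rep Γ x)⁻¹ * (g * h) * rep Γ ((g * h)⁻¹ • x) =
    ((rep Γ x)⁻¹ * g * rep Γ (g⁻¹ • x)) * ((rep Γ (g⁻¹ • x))⁻¹ * h * rep Γ (h⁻¹ • g⁻¹ • x))
  rw [mul_inv_rev, mul_smul]
  group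

variable (k : Type*) [Field k]

/-- The action of `G` on functions on `G ⧸ Γ`: `(ρ g f) x = f (g⁻¹ x)`. -/
noncomputable def rho : G →* Module.End k ((G ⧸ Γ) → k) where
  toFun g := op k (MulAction.toPerm g⁻¹ : Equiv.Perm (G ⧸ Γ))
  map_one' := by
    apply LinearMap.ext
    intro f
    funext x
    show f ((1 : G)⁻¹ • x) = f x
    rw [inv_one, one_smul]
  map_mul' g h := by
    apply LinearMap.ext
    intro f
    funext x
    show f ((g * h)⁻¹ • x) = f (h⁻¹ • g⁻¹ • x)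
    rw [mul_inv_rev, mul_smul]

variable {k}

@[simp] lemma rho_apply (g : G) (f : (G ⧸ Γ) → k) (x : G ⧸ Γ) :
    rho Γ k g f x = f (g⁻¹ • x) := rfl

lemma rho_eq_op (g : G) :
    (rho Γ k g : ((G ⧸ Γ) → k) →ₗ[k] ((G ⧸ Γ) → k)) =
      op k (MulAction.toPerm g : Equiv.Perm (G ⧸ Γ))⁻¹ := by
  apply LinearMap.ext
  intro f
  funext x
  rfl

/-- The cocycle attached to a homomorphism `ψ : Γ → k`. -/
noncomputable def coc (ψ : Additive Γ →+ k) (g : G) : (G ⧸ Γ) → k :=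
  fun x => ψ (Additive.ofMul (cocElt Γ g x))

lemma coc_mul (ψ : Additive Γ →+ k) (g h : G) :
    coc Γ ψ (g * h) = coc Γ ψ g + rho Γ k g (coc Γ ψ h) := by
  funext x
  show ψ (Additive.ofMul (cocElt Γ (g * h) x)) =
    ψ (Additive.ofMul (cocElt Γ g x)) + ψ (Additive.ofMul (cocElt Γ h (g⁻¹ • x)))
  rw [cocElt_mul, ofMul_mul, map_add]

lemma coc_one (ψ : Additive Γ →+ k) : coc Γ ψ 1 = 0 := by
  have h := coc_mul Γ ψ 1 1
  rw [mul_one, map_one, Module.End.one_apply] at h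
  exact left_eq_add.mp h

lemma coc_pow (ψ : Additive Γ →+ k) (g : G) (n : ℕ) :
    coc Γ ψ (g ^ n) = ∑ i ∈ Finset.range n, ((rho Γ k g) ^ i) (coc Γ ψ g) := by
  induction n with
  | zero => simp [coc_one]
  | succ n ih =>
    rw [pow_succ, coc_mul, ih, Finset.sum_range_succ, map_pow]

lemma coc_add (ψ ψ' : Additive Γ →+ k) (g : G) : coc Γ (ψ + ψ') g = coc Γ ψ g + coc Γ ψ' g := by
  funext x
  rfl

lemma coc_smul (c : k) (ψ : Additive Γ →+ k) (g : G) : coc Γ (c • ψ) g = c • coc Γ ψ g := by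
  funext x
  rfl

/-- Averaging: if `(1 + a + ⋯ + a^(n-1)) b = 0` and `n` is invertible, then `b ∈ range (1 - a)`. -/
lemma mem_range_one_sub_of_sum_pow {V : Type*} [AddCommGroup V] [Module k V] [CharZero k]
    (a : Module.End k V) (b : V) (n : ℕ) (hn : 0 < n)
    (h : ∑ i ∈ Finset.range n, (a ^ i) b = 0) : b ∈ LinearMap.range (1 - a) := by
  -- `(1 - a) ∑ (n-1-i) a^i = n - ∑ a^i`
  have key : ∀ m : ℕ, (1 - a) * ∑ i ∈ Finset.range m, ((m : k) - 1 - i) • a ^ i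
      = (m : k) • (1 : Module.End k V) - ∑ i ∈ Finset.range m, a ^ i := by
    intro m
    induction m with
    | zero => simp
    | succ m ih =>
      rw [Finset.sum_range_succ, Finset.sum_range_succ]
      have h1 : ∑ i ∈ Finset.range m, (((m + 1 : ℕ) : k) - 1 - i) • a ^ i
          = ∑ i ∈ Finset.range m, ((m : k) - 1 - i) • a ^ i + ∑ i ∈ Finset.range m, a ^ i := by
        rw [← Finset.sum_add_distrib]
        refine Finset.sum_congr rfl fun i _ => ?_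
        push_cast
        rw [show ((m : k) + 1 - 1 - i) = ((m : k) - 1 - i) + 1 by ring, add_smul, one_smul]
      rw [h1, mul_add, mul_add, ih]
      push_cast
      have h2 : (1 - a) * ∑ i ∈ Finset.range m, a ^ i = 1 - a ^ m := mul_neg_geom_sum a m
      rw [h2]
      simp only [add_sub_cancel_right, sub_self, zero_smul, mul_zero, add_zero, add_smul, one_smul]
      abel
  have h2 := congrArg (fun T : Module.End k V => T b) (key n)
  simp only [Module.End.mul_apply, LinearMap.sub_apply, LinearMap.smul_apply, Module.End.one_apply,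
    LinearMap.sum_apply] at h2
  rw [h, sub_zero] at h2
  have hn' : (n : k) ≠ 0 := Nat.cast_ne_zero.mpr hn.ne'
  refine ⟨(n : k)⁻¹ • ∑ i ∈ Finset.range n, ((n : k) - 1 - i) • (a ^ i) b, ?_⟩
  rw [map_smul]
  have h3 : (1 - a) (∑ i ∈ Finset.range n, ((n : k) - 1 - i) • (a ^ i) b) = (n : k) • b := by
    rw [← h2]
    simp only [LinearMap.sub_apply, Module.End.one_apply]
  rw [h3, smul_smul, inv_mul_cancel₀ hn', one_smul]

end General

section Main

variable {G : Type*} [Group G] (Γ : Subgroup G)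
variable (k : Type*) [Field k]
variable (Par : G → Prop)

/-- Homomorphisms `Γ → k` vanishing on the elements of `Γ` satisfying `Par`. -/
def parHoms : Submodule k (Additive Γ →+ k) where
  carrier := {ψ | ∀ γ : Γ, Par (γ : G) → ψ (Additive.ofMul γ) = 0}
  zero_mem' := fun _ _ => rfl
  add_mem' := by
    intro φ ψ hφ hψ γ hγ
    show φ (Additive.ofMul γ) + ψ (Additive.ofMul γ) = 0
    rw [hφ γ hγ, hψ γ hγ, add_zero]
  smul_mem' := by
    intro c φ hφ γ hγ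
    show c • φ (Additive.ofMul γ) = 0
    rw [hφ γ hγ, smul_zero]

variable {k Par}

lemma mem_parHoms_iff {ψ : Additive Γ →+ k} :
    ψ ∈ parHoms Γ k Par ↔ ∀ γ : Γ, Par (γ : G) → ψ (Additive.ofMul γ) = 0 := Iff.rfl

lemma coc_pow_eq_zero (hPar : ∀ g h : G, Par g → Par (h⁻¹ * g * h)) {ψ : Additive Γ →+ k}
    (hψ : ψ ∈ parHoms Γ k Par) (g : G) (n : ℕ) (htriv : ∀ y : G ⧸ Γ, g ^ n • y = y)
    (hpar : Par (g ^ n)) : coc Γ ψ (g ^ n) = 0 := by
  funext x
  show ψ (Additive.ofMul (cocElt Γ (g ^ n) x)) = 0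
  apply hψ
  have hx : (g ^ n)⁻¹ • x = x := by
    rw [inv_smul_eq_iff, htriv]
  show Par ((rep Γ x)⁻¹ * g ^ n * rep Γ ((g ^ n)⁻¹ • x))
  rw [hx]
  exact hPar _ _ hpar

lemma coc_mem_range [CharZero k] (hPar : ∀ g h : G, Par g → Par (h⁻¹ * g * h))
    {ψ : Additive Γ →+ k} (hψ : ψ ∈ parHoms Γ k Par) (g : G) (n : ℕ) (hn : 0 < n)
    (htriv : ∀ y : G ⧸ Γ, g ^ n • y = y) (hpar : Par (g ^ n)) :
    coc Γ ψ g ∈ LinearMap.range (1 - rho Γ k g) := by
  apply mem_range_one_sub_of_sum_pow (rho Γ k g) (coc Γ ψ g) n hn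
  rw [← coc_pow, coc_pow_eq_zero Γ hPar hψ g n htriv hpar]

/-- If a cocycle agrees with a coboundary on two generators, it agrees everywhere. -/
lemma coc_eq_coboundary (ψ : Additive Γ →+ k) (v : (G ⧸ Γ) → k) (x₁ x₂ : G)
    (hgen : Subgroup.closure ({x₁, x₂} : Set G) = ⊤)
    (h1 : coc Γ ψ x₁ = v - rho Γ k x₁ v) (h2 : coc Γ ψ x₂ = v - rho Γ k x₂ v) (g : G) :
    coc Γ ψ g = v - rho Γ k g v := by
  have hg : g ∈ Subgroup.closure ({x₁, x₂} : Set G) := by rw [hgen]; trivial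
  induction hg using Subgroup.closure_induction with
  | mem g hg =>
    rcases hg with rfl | hg
    · exact h1
    · rw [Set.mem_singleton_iff] at hg
      subst hg
      exact h2
  | one => rw [coc_one, map_one, Module.End.one_apply, sub_self]
  | mul g h _ _ ihg ihh =>
    rw [coc_mul, ihg, ihh, map_mul, map_sub, Module.End.mul_apply]
    abel
  | inv g _ ih =>
    have h0 := coc_mul Γ ψ g⁻¹ g
    rw [inv_mul_cancel, coc_one, ih, map_sub] at h0
    have h3 : rho Γ k g⁻¹ (rho Γ k g v) = v := by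
      rw [← Module.End.mul_apply, ← map_mul, inv_mul_cancel, map_one, Module.End.one_apply]
    rw [h3] at h0
    have h4 : coc Γ ψ g⁻¹ = -(rho Γ k g⁻¹ v - v) := eq_neg_of_add_eq_zero_left h0.symm
    rw [h4]
    abel

/-- Evaluation of the cocycle of `γ ∈ Γ` at the base coset recovers `ψ γ`. -/
lemma coc_base (ψ : Additive Γ →+ k) (γ : Γ) :
    coc Γ ψ (γ : G) (QuotientGroup.mk 1 : G ⧸ Γ) = ψ (Additive.ofMul γ) := by
  set x₀ : G ⧸ Γ := QuotientGroup.mk 1 with hx₀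
  have hx : ((γ : G))⁻¹ • x₀ = x₀ := by
    rw [hx₀, smul_mk_eq, mul_one, QuotientGroup.eq]
    simp
  have hr : rep Γ x₀ ∈ Γ := by
    have h := mk_rep Γ x₀
    rw [hx₀, QuotientGroup.eq] at h
    have h2 : (rep Γ (QuotientGroup.mk 1 : G ⧸ Γ))⁻¹ ∈ Γ := by simpa using h
    exact (Subgroup.inv_mem_iff Γ).mp h2
  have helt : cocElt Γ (γ : G) x₀ = (⟨rep Γ x₀, hr⟩ : Γ)⁻¹ * γ * ⟨rep Γ x₀, hr⟩ := by
    apply Subtype.ext
    show (rep Γ x₀)⁻¹ * (γ : G) * rep Γ (((γ : G))⁻¹ • x₀) = (rep Γ x₀)⁻¹ * (γ : G) * rep Γ x₀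
    rw [hx]
  show ψ (Additive.ofMul (cocElt Γ (γ : G) x₀)) = ψ (Additive.ofMul γ)
  rw [helt, ofMul_mul, ofMul_mul, map_add, map_add, ofMul_inv, map_neg]
  abel

variable [Fintype (G ⧸ Γ)] [DecidableEq (G ⧸ Γ)]

omit [DecidableEq (G ⧸ Γ)] [Fintype (G ⧸ Γ)] in
lemma isTransPair_of_closure (x₁ x₂ : G) (hgen : Subgroup.closure ({x₁, x₂} : Set G) = ⊤) :
    IsTransPair (MulAction.toPerm x₂ : Equiv.Perm (G ⧸ Γ))⁻¹ (MulAction.toPerm x₁)⁻¹ := by
  have key : ∀ g ∈ Subgroup.closure ({x₁, x₂} : Set G),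
      MulAction.toPermHom G (G ⧸ Γ) g ∈ Subgroup.closure
        ({(MulAction.toPerm x₂ : Equiv.Perm (G ⧸ Γ))⁻¹, (MulAction.toPerm x₁)⁻¹} :
          Set (Equiv.Perm (G ⧸ Γ))) := by
    intro g hmem
    induction hmem using Subgroup.closure_induction with
    | mem g hg =>
      have : MulAction.toPermHom G (G ⧸ Γ) g = ((MulAction.toPerm g : Equiv.Perm (G ⧸ Γ))⁻¹)⁻¹ := by
        rw [inv_inv]; rfl
      rw [this]
      apply Subgroup.inv_mem
      apply Subgroup.subset_closure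
      rcases hg with rfl | hg
      · exact Set.mem_insert_of_mem _ (Set.mem_singleton _)
      · rw [Set.mem_singleton_iff] at hg
        subst hg
        exact Set.mem_insert _ _
    | one => rw [map_one]; exact Subgroup.one_mem _
    | mul g h _ _ ihg ihh => rw [map_mul]; exact Subgroup.mul_mem _ ihg ihh
    | inv g _ ih => rw [map_inv]; exact Subgroup.inv_mem _ ih
  intro x y
  obtain ⟨g, hg⟩ := MulAction.exists_smul_eq G x y
  have hmem : g ∈ Subgroup.closure ({x₁, x₂} : Set G) := by rw [hgen]; trivial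
  exact ⟨MulAction.toPermHom G (G ⧸ Γ) g, key g hmem, hg⟩

/-- **Dimension bound** for homomorphisms vanishing on `Par`. -/
theorem finrank_parHoms_add_le [CharZero k]
    (hPar : ∀ g h : G, Par g → Par (h⁻¹ * g * h))
    (x₁ x₂ x₃ : G) (h123 : x₁ * x₂ * x₃ = 1)
    (hgen : Subgroup.closure ({x₁, x₂} : Set G) = ⊤)
    (n₁ n₂ n₃ : ℕ) (hn₁ : 0 < n₁) (hn₂ : 0 < n₂) (hn₃ : 0 < n₃)
    (ht₁ : ∀ y : G ⧸ Γ, x₁ ^ n₁ • y = y) (ht₂ : ∀ y : G ⧸ Γ, x₂ ^ n₂ • y = y)
    (ht₃ : ∀ y : G ⧸ Γ, x₃ ^ n₃ • y = y)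
    (hp₁ : Par (x₁ ^ n₁)) (hp₂ : Par (x₂ ^ n₂)) (hp₃ : Par (x₃ ^ n₃)) :
    FiniteDimensional k ↥(parHoms Γ k Par) ∧
    finrank k ↥(parHoms Γ k Par) + cyc (MulAction.toPerm x₁ : Equiv.Perm (G ⧸ Γ))
      + cyc (MulAction.toPerm x₂ : Equiv.Perm (G ⧸ Γ))
      + cyc (MulAction.toPerm x₃ : Equiv.Perm (G ⧸ Γ)) ≤ Fintype.card (G ⧸ Γ) + 2 := by
  set a : ((G ⧸ Γ) → k) →ₗ[k] ((G ⧸ Γ) → k) := rho Γ k x₁ with ha
  set b : ((G ⧸ Γ) → k) →ₗ[k] ((G ⧸ Γ) → k) := rho Γ k x₂ with hb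
  set c : ((G ⧸ Γ) → k) →ₗ[k] ((G ⧸ Γ) → k) := rho Γ k x₃ with hc
  have habc : a ∘ₗ b ∘ₗ c = LinearMap.id := by
    have h := congrArg (rho Γ k) h123
    rw [map_mul, map_mul, map_one] at h
    rw [ha, hb, hc]
    rw [← Module.End.mul_eq_comp, ← Module.End.mul_eq_comp, ← mul_assoc, h]
    rfl
  -- the map to the Scott complex
  let Ψ : ↥(parHoms Γ k Par) →ₗ[k] ScottW a b c :=
    { toFun := fun ψ =>
        (⟨coc Γ ψ.1 x₁, coc_mem_range Γ hPar ψ.2 x₁ n₁ hn₁ ht₁ hp₁⟩,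
         ⟨coc Γ ψ.1 x₂, coc_mem_range Γ hPar ψ.2 x₂ n₂ hn₂ ht₂ hp₂⟩,
         ⟨coc Γ ψ.1 x₃, coc_mem_range Γ hPar ψ.2 x₃ n₃ hn₃ ht₃ hp₃⟩)
      map_add' := by
        intro ψ ψ'
        refine Prod.ext (Subtype.ext ?_) (Prod.ext (Subtype.ext ?_) (Subtype.ext ?_))
        · exact coc_add Γ ψ.1 ψ'.1 x₁
        · exact coc_add Γ ψ.1 ψ'.1 x₂
        · exact coc_add Γ ψ.1 ψ'.1 x₃
      map_smul' := by
        intro r ψ
        refine Prod.ext (Subtype.ext ?_) (Prod.ext (Subtype.ext ?_) (Subtype.ext ?_))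
        · exact coc_smul Γ r ψ.1 x₁
        · exact coc_smul Γ r ψ.1 x₂
        · exact coc_smul Γ r ψ.1 x₃ }
  have hΨδ : ∀ ψ, scottδ a b c (Ψ ψ) = 0 := by
    intro ψ
    rw [scottδ_apply]
    show coc Γ ψ.1 x₁ + (rho Γ k x₁ (coc Γ ψ.1 x₂) + rho Γ k x₁ (rho Γ k x₂ (coc Γ ψ.1 x₃))) = 0
    have h := coc_mul Γ ψ.1 (x₁ * x₂) x₃
    rw [h123, coc_one, coc_mul, map_mul, Module.End.mul_apply] at h
    rw [h]
    abel
  have hΨβ : ∀ ψ, Ψ ψ ∈ LinearMap.range (scottβ a b c) → ψ = 0 := by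
    rintro ψ ⟨v, hv⟩
    have e1 : coc Γ ψ.1 x₁ = v - rho Γ k x₁ v := by
      have := congrArg (fun w : ScottW a b c => (w.1 : (G ⧸ Γ) → k)) hv
      simp only [scottβ_apply_fst] at this
      exact this.symm
    have e2 : coc Γ ψ.1 x₂ = v - rho Γ k x₂ v := by
      have := congrArg (fun w : ScottW a b c => (w.2.1 : (G ⧸ Γ) → k)) hv
      simp only [scottβ_apply_snd_fst] at this
      exact this.symm
    have hall := coc_eq_coboundary Γ ψ.1 v x₁ x₂ hgen e1 e2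
    apply Subtype.ext
    apply AddMonoidHom.ext
    intro γ'
    obtain ⟨γ, rfl⟩ : ∃ γ : Γ, Additive.ofMul γ = γ' := ⟨Additive.toMul γ', rfl⟩
    rw [← coc_base Γ ψ.1 γ, hall (γ : G)]
    show v _ - v (((γ : G))⁻¹ • (QuotientGroup.mk 1 : G ⧸ Γ)) = 0
    have hx : ((γ : G))⁻¹ • (QuotientGroup.mk 1 : G ⧸ Γ) = QuotientGroup.mk 1 := by
      rw [smul_mk_eq, mul_one, QuotientGroup.eq]
      simp
    rw [hx, sub_self]
  obtain ⟨hfd, hineq⟩ := scott_sub (H := ↥(parHoms Γ k Par)) habc Ψ hΨδ hΨβ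
  refine ⟨hfd, ?_⟩
  -- dimension bookkeeping
  have htp := isTransPair_of_closure Γ x₁ x₂ hgen
  have hker : finrank k ↥(LinearMap.ker (scottβ a b c)) ≤ 1 := by
    rw [ker_scottβ]
    apply finrank_fixed_le_one htp
    intro f hf
    rw [Submodule.mem_inf, Submodule.mem_inf] at hf
    constructor
    · have := hf.2.1
      rw [hb, rho_eq_op] at this
      exact (mem_ker_one_sub_op _ f).mp this
    · have := hf.1
      rw [ha, rho_eq_op] at this
      exact (mem_ker_one_sub_op _ f).mp this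
  have hU := card_le_finrank_add_one htp a b
    (fun f => by rw [ha, rho_eq_op]) (fun f => by rw [hb, rho_eq_op])
    (LinearMap.range (scottδ a b c))
    (fun f => by
      rw [range_scottδ]
      exact Submodule.mem_sup_left (LinearMap.mem_range_self _ f))
    (fun f => by
      rw [range_scottδ]
      exact Submodule.mem_sup_right (Submodule.mem_sup_left
          (Submodule.mem_map_of_mem (LinearMap.mem_range_self _ f))))
  have ra := finrank_range_one_sub_op_inv k (MulAction.toPerm x₁ : Equiv.Perm (G ⧸ Γ))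
  have rb := finrank_range_one_sub_op_inv k (MulAction.toPerm x₂ : Equiv.Perm (G ⧸ Γ))
  have rc := finrank_range_one_sub_op_inv k (MulAction.toPerm x₃ : Equiv.Perm (G ⧸ Γ))
  rw [← rho_eq_op, ← ha] at ra
  rw [← rho_eq_op, ← hb] at rb
  rw [← rho_eq_op, ← hc] at rc
  rw [Module.finrank_fintype_fun_eq_card] at hineq
  omega

end Main

end Fermat.Agent.ProgramR.ES
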