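import Mathlib
import Fermat.Prelude.Def_ModularCurve_PeriodMap
import Fermat.Prelude.Def_ModularCurve_GenusNumerics
import Fermat.Agent.ProgramR.Counting.GenusNat
import Fermat.Agent.ProgramR.ES.Cocycle

/-!
# `dim_ℂ parabolicHoms(Γ₀(N), ℂ) ≤ 2 g` (S21, group theory side)
-/

set_option autoImplicit false

namespace Fermat.Agent.ProgramR.ES

open Module Fermat.Agent.ProgramR.Genus Matrix.SpecialLinearGroup CongruenceSubgroup
open scoped MatrixGroups ModularGroup

/-- The parabolic predicate on `SL(2,ℤ)`: trace `±2`. -/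
def IsPar (g : SL(2, ℤ)) : Prop := (g : Matrix (Fin 2) (Fin 2) ℤ).trace ^ 2 = 4

lemma isPar_conj (g h : SL(2, ℤ)) (hg : IsPar g) : IsPar (h⁻¹ * g * h) := by
  unfold IsPar at hg ⊢
  have : ((h⁻¹ * g * h : SL(2, ℤ)) : Matrix (Fin 2) (Fin 2) ℤ).trace
      = (g : Matrix (Fin 2) (Fin 2) ℤ).trace := by
    rw [Matrix.SpecialLinearGroup.coe_mul, Matrix.trace_mul_comm,
      ← Matrix.SpecialLinearGroup.coe_mul, mul_inv_cancel_left]
  rw [this]
  exact hg

lemma isPar_neg_one : IsPar (-1 : SL(2, ℤ)) := by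
  unfold IsPar
  simp [Matrix.trace_fin_two]

lemma isPar_T_pow (n : ℕ) : IsPar (ModularGroup.T ^ n) := by
  unfold IsPar
  have h := ModularGroup.coe_T_zpow (n : ℤ)
  rw [zpow_natCast] at h
  have h2 : ((ModularGroup.T ^ n : SL(2, ℤ)) : Matrix (Fin 2) (Fin 2) ℤ) = !![1, (n : ℤ); 0, 1] := h
  rw [h2]
  simp [Matrix.trace_fin_two]

variable (N : ℕ)

lemma parHoms_eq :
    parHoms (Gamma0 N) ℂ IsPar = ModularCurve.Period.parabolicHoms ℂ (Gamma0 N) ℂ := rfl

lemma T_pow_smul_coset (x : SL(2, ℤ) ⧸ Gamma0 N) : (ModularGroup.T ^ N : SL(2, ℤ)) • x = x := by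
  induction x using QuotientGroup.induction_on with
  | H g =>
    show (QuotientGroup.mk ((ModularGroup.T ^ N : SL(2, ℤ)) * g) : SL(2, ℤ) ⧸ Gamma0 N) =
      QuotientGroup.mk g
    symm
    rw [P1.mk_eq_mk_iff]
    refine ⟨1, ?_⟩
    have h := col_T_zpow_mul N (N : ℤ) g
    rw [zpow_natCast] at h
    rw [h]
    simp

lemma cyc_inv {X : Type*} (π : Equiv.Perm X) : cyc π⁻¹ = cyc π := by
  unfold cyc
  refine Nat.card_congr (Quotient.congr (Equiv.refl _) ?_)
  intro x y
  exact Equiv.Perm.sameCycle_inv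

variable [NeZero N]

attribute [local instance] cosetFintype

open Classical in
/-- **S21, group theory**: the space of parabolic homomorphisms `Γ₀(N) → ℂ` is finite dimensional
of dimension at most `2 g`, `g = genusFormula N`. -/
theorem finrank_parabolicHoms_le :
    FiniteDimensional ℂ ↥(ModularCurve.Period.parabolicHoms ℂ (Gamma0 N) ℂ) ∧
    ∀ g : ℕ, (g : ℚ) = ModularCurve.genusFormula N →
      finrank ℂ ↥(ModularCurve.Period.parabolicHoms ℂ (Gamma0 N) ℂ) ≤ 2 * g := by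
  have h := finrank_parHoms_add_le (Gamma0 N) (k := ℂ) (Par := IsPar) isPar_conj
    ModularGroup.S ModularGroup.T (ModularGroup.S * ModularGroup.T)⁻¹ (by group)
    SpecialLinearGroup.SL2Z_generators 2 N 3 (by norm_num) (NeZero.pos N) (by norm_num)
    (fun y => by rw [pow_two, S_mul_S]; exact neg_one_smul_coset N y)
    (T_pow_smul_coset N)
    (fun y => by rw [inv_pow, ST_cube]; simpa using neg_one_smul_coset N y)
    (by rw [pow_two, S_mul_S]; exact isPar_neg_one)
    (isPar_T_pow N)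
    (by rw [inv_pow, ST_cube]; simpa using isPar_neg_one)
  rw [parHoms_eq] at h
  refine ⟨h.1, ?_⟩
  intro g hg
  obtain ⟨g', hg', hgq⟩ := exists_genus_cyc N
  have hgg : g = g' := by
    have : (g : ℚ) = (g' : ℚ) := by rw [hg, hgq]
    exact_mod_cast this
  subst hgg
  have h2 := h.2
  have e1 : (MulAction.toPerm (ModularGroup.S : SL(2, ℤ)) : Equiv.Perm (SL(2, ℤ) ⧸ Gamma0 N))
      = sigmaN N := rfl
  have e2 : (MulAction.toPerm (ModularGroup.T : SL(2, ℤ)) : Equiv.Perm (SL(2, ℤ) ⧸ Gamma0 N))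
      = tauN N := rfl
  have e3 : (MulAction.toPerm ((ModularGroup.S * ModularGroup.T)⁻¹ : SL(2, ℤ)) :
      Equiv.Perm (SL(2, ℤ) ⧸ Gamma0 N)) = (sigmaN N * tauN N)⁻¹ := by
    have := map_inv (MulAction.toPermHom SL(2, ℤ) (SL(2, ℤ) ⧸ Gamma0 N))
      (ModularGroup.S * ModularGroup.T)
    rw [map_mul] at this
    exact this
  rw [e1, e2, e3, cyc_inv] at h2
  omega

end Fermat.Agent.ProgramR.ES
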