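/-
Program R, S21 track, package [ES-B] (helper2).
Every weight-2 cusp form `f` on `Γ₀(N)` has a normalised primitive `prim f` on `ℍ`
(`prim f` is `1`-periodic, tends to `0` at `i∞`), which is an equivariant primitive in the
prelude's sense (`ModularCurve.HasEquivariantPrimitive N f (prim f)`).  Uniqueness gives a closed
formula for the prelude's `periodMap` and its linearity (`ModularCurve.ExistsPeriodMapLinear N`).
-/
import Mathlib
import Fermat.Prelude.Def_ModularCurve_PeriodHomPair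
import Fermat.Agent.TeamB.Injective

set_option autoImplicit false

noncomputable section

namespace Fermat.Agent.ProgramR.ES

open UpperHalfPlane Filter Topology CongruenceSubgroup Matrix.SpecialLinearGroup
open ModularCurve ModularCurve.Period Fermat.Agent.TeamB
open scoped MatrixGroups ModularForm Manifold

/-! ### Generalities on `HasDerivH` -/

/-- Chain rule for Möbius transformations in weight `2`. -/
theorem hasDerivH_comp_smul {F g : ℍ → ℂ} (h : HasDerivH F g) {α : GL (Fin 2) ℝ}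
    (hα : 0 < α.det.val) : HasDerivH (fun z => F (α • z)) (g ∣[(2 : ℤ)] α) := by
  intro τ
  have h2 := hasDerivAt_smul_ofComplex hα τ
  have h1' : HasDerivAt (F ∘ ofComplex) (g (α • τ))
      ((fun z : ℂ => ((α • ofComplex z : ℍ) : ℂ)) (τ : ℂ)) := by
    simpa [ofComplex_apply] using h (α • τ)
  have h3 := h1'.comp (τ : ℂ) h2
  have hfun : ((fun z => F (α • z)) ∘ ofComplex) =
      (F ∘ ofComplex) ∘ (fun z : ℂ => ((α • ofComplex z : ℍ) : ℂ)) := by
    funext z
    simp [ofComplex_apply]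
  rw [hfun]
  refine h3.congr_deriv ?_
  rw [slash_apply_of_det_pos _ _ hα]
  have hτ := denom_ne_zero α τ
  have e1 : ((2 : ℤ) - 1) = ((1 : ℕ) : ℤ) := by norm_num
  have e2 : (-(2 : ℤ)) = -((2 : ℕ) : ℤ) := by norm_num
  rw [e1, e2, zpow_natCast, zpow_neg, zpow_natCast, pow_one]
  field_simp

theorem hasDerivH_add {F₁ F₂ g₁ g₂ : ℍ → ℂ} (h₁ : HasDerivH F₁ g₁) (h₂ : HasDerivH F₂ g₂) :
    HasDerivH (F₁ + F₂) (g₁ + g₂) := fun τ => (h₁ τ).add (h₂ τ)

theorem hasDerivH_sub {F₁ F₂ g₁ g₂ : ℍ → ℂ} (h₁ : HasDerivH F₁ g₁) (h₂ : HasDerivH F₂ g₂) :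
    HasDerivH (F₁ - F₂) (g₁ - g₂) := fun τ => (h₁ τ).sub (h₂ τ)

theorem hasDerivH_const_smul {F g : ℍ → ℂ} (h : HasDerivH F g) (c : ℂ) :
    HasDerivH (c • F) (c • g) := fun τ => (h τ).const_smul c

/-- Two primitives of the same function differ by a constant. -/
theorem sub_const_of_hasDerivH {F₁ F₂ g : ℍ → ℂ} (h₁ : HasDerivH F₁ g) (h₂ : HasDerivH F₂ g)
    (z w : ℍ) : F₁ z - F₂ z = F₁ w - F₂ w := by
  have h : ∀ τ : ℍ, HasDerivAt (fun x : ℂ => (F₁ ∘ ofComplex) x - (F₂ ∘ ofComplex) x) 0 (τ : ℂ) := by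
    intro τ
    have e := (h₁ τ).sub (h₂ τ)
    rw [sub_self] at e
    exact e
  have := eq_of_hasDerivAt_zero h z w
  simpa [ofComplex_apply] using this

/-- A function with zero derivative on `ℍ` is constant. -/
theorem const_of_hasDerivH_zero {F : ℍ → ℂ} (h : HasDerivH F 0) (z w : ℍ) : F z = F w := by
  have h0 : HasDerivH (0 : ℍ → ℂ) 0 := fun τ => hasDerivAt_const (τ : ℂ) (0 : ℂ)
  have := sub_const_of_hasDerivH h h0 z w
  simp at this
  exact this

/-- Uniqueness of the primitive vanishing at `i∞`. -/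
theorem eq_of_hasDerivH_of_tendsto {F₁ F₂ g : ℍ → ℂ} (h₁ : HasDerivH F₁ g) (h₂ : HasDerivH F₂ g)
    (t₁ : Tendsto F₁ atImInfty (𝓝 0)) (t₂ : Tendsto F₂ atImInfty (𝓝 0)) : F₁ = F₂ := by
  have hc : ∀ z : ℍ, F₁ z - F₂ z = F₁ I - F₂ I := fun z => sub_const_of_hasDerivH h₁ h₂ z I
  have ht : Tendsto (fun z => F₁ z - F₂ z) atImInfty (𝓝 (0 - 0)) := t₁.sub t₂
  have ht' : Tendsto (fun _ : ℍ => F₁ I - F₂ I) atImInfty (𝓝 (0 - 0)) := by
    refine ht.congr fun z => hc z
  have h0 : F₁ I - F₂ I = 0 - 0 := tendsto_nhds_unique tendsto_const_nhds ht'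
  funext z
  have := hc z
  rw [h0] at this
  simpa [sub_eq_zero] using this

/-- The derivative is determined by the primitive. -/
theorem eq_of_hasDerivH_left {F g₁ g₂ : ℍ → ℂ} (h₁ : HasDerivH F g₁) (h₂ : HasDerivH F g₂) :
    g₁ = g₂ := funext fun τ => (h₁ τ).unique (h₂ τ)

/-! ### The normalised primitive of a weight-2 cusp form -/

variable {N : ℕ} [NeZero N]

/-- The normalised primitive of a weight-2 cusp form: `(prim f)' = f`, `prim f → 0` at `i∞`. -/
def prim (f : CuspForm (Gamma0 N) 2) : ℍ → ℂ := primChain 1 (⇑f) 1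

theorem prim_cuspidal (f : CuspForm (Gamma0 N) 2) : IsCuspidal 1 (prim f) :=
  primChain_cuspidal one_pos (isCuspidal_cuspForm f) 1

theorem prim_hasDerivH (f : CuspForm (Gamma0 N) 2) : HasDerivH (prim f) (⇑f) := by
  have := primChain_hasDerivH one_pos (isCuspidal_cuspForm f) 0
  rwa [primChain_zero] at this

theorem prim_tendsto (f : CuspForm (Gamma0 N) 2) : Tendsto (prim f) atImInfty (𝓝 0) :=
  (prim_cuspidal f).zero

theorem prim_mdifferentiable (f : CuspForm (Gamma0 N) 2) : MDiff (prim f) :=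
  (prim_cuspidal f).hol

/-- The characterisation of `prim f`. -/
theorem eq_prim {f : CuspForm (Gamma0 N) 2} {F : ℍ → ℂ} (h : HasDerivH F (⇑f))
    (t : Tendsto F atImInfty (𝓝 0)) : F = prim f :=
  eq_of_hasDerivH_of_tendsto h (prim_hasDerivH f) t (prim_tendsto f)

theorem prim_add (f g : CuspForm (Gamma0 N) 2) : prim (f + g) = prim f + prim g := by
  symm
  refine eq_prim ?_ ?_
  · rw [FunLike.coe_add]
    exact hasDerivH_add (prim_hasDerivH f) (prim_hasDerivH g)
  · have e := (prim_tendsto f).add (prim_tendsto g)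
    rw [add_zero] at e
    exact e

theorem prim_smul (c : ℂ) (f : CuspForm (Gamma0 N) 2) : prim (c • f) = c • prim f := by
  symm
  refine eq_prim ?_ ?_
  · rw [FunLike.coe_smul]
    exact hasDerivH_const_smul (prim_hasDerivH f) c
  · have e := (prim_tendsto f).const_smul c
    rw [smul_zero] at e
    exact e

theorem prim_zero : prim (0 : CuspForm (Gamma0 N) 2) = 0 := by
  have := prim_smul (0 : ℂ) (0 : CuspForm (Gamma0 N) 2)
  simpa using this

/-- `prim f ∘ γ` is again a primitive of `f`, for `γ ∈ Γ₀(N)`. -/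
theorem prim_comp_hasDerivH (f : CuspForm (Gamma0 N) 2) (γ : Gamma0 N) :
    HasDerivH (fun z => prim f ((γ : SL(2, ℤ)) • z)) (⇑f) := by
  have := hasDerivH_comp_smul (prim_hasDerivH f) (det_mapGL_pos (γ : SL(2, ℤ)))
  rwa [slash_mapGL_eq f γ] at this

theorem prim_equivariant (f : CuspForm (Gamma0 N) 2) :
    IsEquivariantPrimitive (Gamma0 N) (prim f) := by
  intro γ
  refine ⟨prim f ((γ : SL(2, ℤ)) • I) - prim f I, fun z => ?_⟩
  exact sub_const_of_hasDerivH (prim_comp_hasDerivH f γ) (prim_hasDerivH f) z I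

/-- `prim f ∘ δ` has a limit at `i∞` for every `δ ∈ SL(2, ℤ)`. -/
theorem prim_tendsto_smul (f : CuspForm (Gamma0 N) 2) (δ : SL(2, ℤ)) :
    ∃ L : ℂ, Tendsto (fun w : ℍ => prim f (δ • w)) atImInfty (𝓝 L) := by
  obtain ⟨M, hM, hMper⟩ := exists_period_translates (N := N) 2
  have hM' : (0 : ℝ) < (M : ℝ) := by exact_mod_cast hM
  set g : ℍ → ℂ := (⇑f) ∣[(2 : ℤ)] (mapGL ℝ δ : GL (Fin 2) ℝ) with hg
  have hgc : IsCuspidal (M : ℝ) g := isCuspidal_slash f δ hM' (hMper δ)
  set G : ℍ → ℂ := primChain (M : ℝ) g 1 with hGdef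
  have hG : HasDerivH G g := by
    have := primChain_hasDerivH hM' hgc 0
    rwa [primChain_zero] at this
  have hG0 : Tendsto G atImInfty (𝓝 0) := (primChain_cuspidal hM' hgc 1).zero
  have h1 : HasDerivH (fun z => prim f (δ • z)) g :=
    hasDerivH_comp_smul (prim_hasDerivH f) (det_mapGL_pos δ)
  refine ⟨prim f (δ • I) - G I, ?_⟩
  have hfun : (fun w : ℍ => prim f (δ • w)) = fun w => G w + (prim f (δ • I) - G I) := by
    funext w
    have := sub_const_of_hasDerivH h1 hG w I
    linear_combination this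
  rw [hfun]
  simpa using hG0.add_const (prim f (δ • I) - G I)

/-- **[ES-B]** existence of the equivariant primitive. -/
theorem hasEquivariantPrimitive_prim (f : CuspForm (Gamma0 N) 2) :
    HasEquivariantPrimitive N f (prim f) :=
  ⟨prim_hasDerivH f, prim_tendsto f, prim_equivariant f, prim_tendsto_smul f⟩

/-- Every equivariant primitive is the normalised one. -/
theorem eq_prim_of_hasEquivariantPrimitive {f : CuspForm (Gamma0 N) 2} {F : ℍ → ℂ}
    (h : HasEquivariantPrimitive N f F) : F = prim f :=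
  eq_prim h.1 h.2.1

/-- Closed formula for the prelude's period map. -/
theorem periodMap_apply (f : CuspForm (Gamma0 N) 2) (γ : Gamma0 N) :
    periodMap N f (Additive.ofMul γ) = prim f ((γ : SL(2, ℤ)) • I) - prim f I := by
  obtain ⟨F₀, h₀, he⟩ := periodMap_def N f (hasEquivariantPrimitive_prim f)
  have hF : F₀ = prim f := eq_prim_of_hasEquivariantPrimitive h₀
  subst hF
  rw [he]
  rfl

theorem periodMap_apply' (f : CuspForm (Gamma0 N) 2) (γ : Gamma0 N) (z : ℍ) :
    periodMap N f (Additive.ofMul γ) = prim f ((γ : SL(2, ℤ)) • z) - prim f z := by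
  rw [periodMap_apply]
  exact (sub_const_of_hasDerivH (prim_comp_hasDerivH f γ) (prim_hasDerivH f) z I).symm

/-- The period map as a linear map. -/
def periodLin (N : ℕ) [NeZero N] :
    CuspForm (Gamma0 N) 2 →ₗ[ℂ] (Additive (Gamma0 N) →+ ℂ) where
  toFun f := periodMap N f
  map_add' f g := by
    refine AddMonoidHom.ext fun γ => ?_
    obtain ⟨γ, rfl⟩ := Additive.ofMul.surjective γ
    rw [AddMonoidHom.add_apply, periodMap_apply, periodMap_apply, periodMap_apply, prim_add]
    simp only [Pi.add_apply]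
    ring
  map_smul' c f := by
    refine AddMonoidHom.ext fun γ => ?_
    obtain ⟨γ, rfl⟩ := Additive.ofMul.surjective γ
    rw [RingHom.id_apply, AddMonoidHom.smul_apply, periodMap_apply, periodMap_apply, prim_smul]
    simp only [Pi.smul_apply, smul_eq_mul]
    ring

@[simp] theorem periodLin_apply (f : CuspForm (Gamma0 N) 2) : periodLin N f = periodMap N f := rfl

/-- **[ES-B]** the prelude's period map is linear. -/
theorem existsPeriodMapLinear (N : ℕ) [NeZero N] : ExistsPeriodMapLinear N :=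
  ⟨periodLin N, fun _ => rfl⟩

/-- The prelude's `periodHomPair` in closed form. -/
theorem periodHomPair_eq (N : ℕ) [NeZero N] :
    periodHomPair N = LinearMap.coprod
      ((LinearMap.id + charInvolution N ℂ ℂ) ∘ₗ periodLin N)
      ((LinearMap.id - charInvolution N ℂ ℂ) ∘ₗ periodLin N) := by
  obtain ⟨pml, hpml, h⟩ := periodHomPair_def N (existsPeriodMapLinear N)
  have : pml = periodLin N := LinearMap.ext fun f => hpml f
  rw [h, this]

end Fermat.Agent.ProgramR.ES
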