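/-
Program R, S21 track, package [ES-C] (helper2).
The period homomorphism of a weight-2 cusp form on `Γ₀(N)` vanishes on parabolic elements:
`periodMap N f ∈ parabolicHoms ℂ (Γ₀(N)) ℂ`, hence the range of the prelude's `periodHomPair N`
lies in the parabolic homomorphisms.
-/
import Mathlib
import Fermat.Agent.ProgramR.ES.Primitive

set_option autoImplicit false

noncomputable section

namespace Fermat.Agent.ProgramR.ES

open UpperHalfPlane Filter Topology CongruenceSubgroup Matrix.SpecialLinearGroup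
open ModularCurve ModularCurve.Period Fermat.Agent.TeamB
open scoped MatrixGroups ModularForm Manifold

/-- An element of `SL(2, ℤ)` of trace `±2` is conjugate in `SL(2, ℤ)` to an upper triangular
matrix. -/
theorem exists_conj_lowerLeft_eq_zero (γ : SL(2, ℤ))
    (h : (γ : Matrix (Fin 2) (Fin 2) ℤ).trace ^ 2 = 4) :
    ∃ κ : SL(2, ℤ), (κ * γ * κ⁻¹ : SL(2, ℤ)) 1 0 = 0 := by
  have hdet : γ 0 0 * γ 1 1 - γ 0 1 * γ 1 0 = 1 := by
    have := γ.det_coe
    rwa [Matrix.det_fin_two] at this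
  rw [Matrix.trace_fin_two] at h
  by_cases hc : γ 1 0 = 0
  · exact ⟨1, by simpa using hc⟩
  -- the sign `ε` with `a + d = 2 ε`
  obtain ⟨ε, hε, htr⟩ : ∃ ε : ℤ, ε * ε = 1 ∧ γ 0 0 + γ 1 1 = 2 * ε := by
    have h' : (γ 0 0 + γ 1 1 - 2) * (γ 0 0 + γ 1 1 + 2) = 0 := by linear_combination h
    rcases mul_eq_zero.mp h' with h1 | h1
    · exact ⟨1, by norm_num, by linarith⟩
    · exact ⟨-1, by norm_num, by linarith⟩
  have hg : 0 < Int.gcd (γ 1 0) (ε - γ 0 0) := Int.gcd_pos_of_ne_zero_left _ hc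
  obtain ⟨w₀, w₁, hcop, e₀, e₁⟩ := Int.exists_gcd_one hg
  set g : ℤ := (Int.gcd (γ 1 0) (ε - γ 0 0) : ℤ) with hgdef
  have hg0 : g ≠ 0 := by
    have : (0 : ℤ) < g := Int.natCast_pos.mpr hg
    exact this.ne'
  have hcop' : IsCoprime w₀ w₁ := Int.isCoprime_iff_gcd_eq_one.mpr hcop
  obtain ⟨κ, -, hκ⟩ := ModularGroup.bottom_row_surj (R := ℤ)
    (show (![w₀, w₁] : Fin 2 → ℤ) ∈ {cd : Fin 2 → ℤ | IsCoprime (cd 0) (cd 1)} from by
      simpa using hcop')
  have hκ0 : κ 1 0 = w₀ := by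
    have := congrFun hκ 0
    simpa using this
  have hκ1 : κ 1 1 = w₁ := by
    have := congrFun hκ 1
    simpa using this
  refine ⟨κ, ?_⟩
  have hval : (κ * γ * κ⁻¹ : SL(2, ℤ)) 1 0 =
      (w₀ * γ 0 0 + w₁ * γ 1 0) * w₁ - (w₀ * γ 0 1 + w₁ * γ 1 1) * w₀ := by
    rw [Matrix.SpecialLinearGroup.coe_mul, Matrix.SpecialLinearGroup.coe_mul,
      Matrix.SpecialLinearGroup.coe_inv, Matrix.adjugate_fin_two]
    simp only [Matrix.mul_apply, Fin.sum_univ_two, Matrix.of_apply, Matrix.cons_val', Matrix.cons_val_zero,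
      Matrix.cons_val_one, Matrix.cons_val_fin_one, hκ0, hκ1]
    ring
  rw [hval]
  -- multiply by `g²` and use the relations
  have hb : γ 0 1 * w₀ = -(g * w₁ * w₁) := by
    have h1 : g * (γ 0 1 * w₀) = g * (-(g * w₁ * w₁)) := by
      have hd : γ 1 1 = 2 * ε - γ 0 0 := by linarith
      have ha : γ 0 0 = ε - w₁ * g := by linarith
      have hc' : γ 1 0 = w₀ * g := e₀
      rw [hd, hc', ha] at hdet
      linear_combination (-1 : ℤ) * hdet + hε
    exact mul_left_cancel₀ hg0 h1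
  have hd : γ 1 1 = 2 * ε - γ 0 0 := by linarith
  have ha : γ 0 0 = ε - w₁ * g := by linarith
  rw [hd, ha, e₀]
  linear_combination (-w₀) * hb

variable {N : ℕ} [NeZero N]

/-- Translation by `T ^ n` preserves the filter `atImInfty`. -/
theorem tendsto_T_zpow_smul_atImInfty (n : ℤ) :
    Tendsto (fun w : ℍ => (ModularGroup.T ^ n : SL(2, ℤ)) • w) atImInfty atImInfty := by
  rw [atImInfty, tendsto_comap_iff]
  have : (UpperHalfPlane.im ∘ fun w : ℍ => (ModularGroup.T ^ n : SL(2, ℤ)) • w) =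
      UpperHalfPlane.im := by
    funext w
    exact ModularGroup.im_T_zpow_smul w n
  rw [this]
  exact tendsto_comap

/-- **[ES-C]** the period homomorphism of a cusp form is parabolic. -/
theorem periodMap_mem_parabolicHoms (f : CuspForm (Gamma0 N) 2) :
    periodMap N f ∈ parabolicHoms ℂ (Gamma0 N) ℂ := by
  rw [mem_parabolicHoms_iff]
  intro γ hγ
  obtain ⟨κ, hκ⟩ := exists_conj_lowerLeft_eq_zero (γ : SL(2, ℤ)) hγ
  obtain ⟨n, hn⟩ := ModularGroup.exists_eq_T_zpow_of_c_eq_zero hκ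
  have key : ∀ w : ℍ, (γ : SL(2, ℤ)) • (κ⁻¹ • w) = κ⁻¹ • ((ModularGroup.T ^ n : SL(2, ℤ)) • w) := by
    intro w
    rw [← hn w, ← mul_smul, ← mul_smul]
    congr 1
    group
  obtain ⟨L, hL⟩ := prim_tendsto_smul f κ⁻¹
  have h1 : ∀ w : ℍ, periodMap N f (Additive.ofMul γ) =
      prim f (κ⁻¹ • ((ModularGroup.T ^ n : SL(2, ℤ)) • w)) - prim f (κ⁻¹ • w) := fun w => by
    rw [periodMap_apply' f γ (κ⁻¹ • w), key]
  have h2 : Tendsto (fun w : ℍ => prim f (κ⁻¹ • ((ModularGroup.T ^ n : SL(2, ℤ)) • w)) -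
      prim f (κ⁻¹ • w)) atImInfty (𝓝 (L - L)) :=
    (hL.comp (tendsto_T_zpow_smul_atImInfty n)).sub hL
  have h3 : Tendsto (fun _ : ℍ => periodMap N f (Additive.ofMul γ)) atImInfty (𝓝 (L - L)) :=
    h2.congr fun w => (h1 w).symm
  have := tendsto_nhds_unique tendsto_const_nhds h3
  rw [this, sub_self]

theorem periodLin_mem_parabolicHoms (f : CuspForm (Gamma0 N) 2) :
    periodLin N f ∈ parabolicHoms ℂ (Gamma0 N) ℂ :=
  periodMap_mem_parabolicHoms f

/-- The range of `periodHomPair` consists of parabolic homomorphisms. -/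
theorem range_periodHomPair_le (N : ℕ) [NeZero N] :
    LinearMap.range (periodHomPair N) ≤ parabolicHoms ℂ (Gamma0 N) ℂ := by
  rintro _ ⟨⟨f, g⟩, rfl⟩
  rw [periodHomPair_eq]
  simp only [LinearMap.coprod_apply, LinearMap.comp_apply, LinearMap.add_apply,
    LinearMap.sub_apply, LinearMap.id_apply]
  have hf := periodLin_mem_parabolicHoms f
  have hg := periodLin_mem_parabolicHoms g
  exact Submodule.add_mem _
    (Submodule.add_mem _ hf (charInvolution_mem_parabolicHoms N ℂ ℂ hf))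
    (Submodule.sub_mem _ hg (charInvolution_mem_parabolicHoms N ℂ ℂ hg))

end Fermat.Agent.ProgramR.ES
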