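/-
Program R, S21 track, package [ES-E] (helper2).
Injectivity of the prelude's `periodHomPair N`: if `(1+ι) P(f) + (1-ι) P(g) = 0` then the function
`U = A + conj B`, `A = F_f + F_g`, `B(z) = conj ((F_f - F_g)(-conj z))`, is `Γ₀(N)`-invariant;
the maximum principle (`ES.const_of_re_invariant`, lead) applied to `A + B` and `-i (A - B)`
shows that `A` and `B` are constant, i.e. `f + g = 0 = f - g`.
-/
import Mathlib
import Fermat.Agent.ProgramR.ES.Parabolic
import Fermat.Agent.ProgramR.ES.MaxPrinciple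

set_option autoImplicit false

noncomputable section

namespace Fermat.Agent.ProgramR.ES

open UpperHalfPlane Filter Topology CongruenceSubgroup Matrix.SpecialLinearGroup
open ModularCurve ModularCurve.Period Fermat.Agent.TeamB
open scoped MatrixGroups ModularForm Manifold ComplexConjugate

/-! ### The anti-holomorphic involution `J` and the involution `jConjSL` of `SL(2, ℤ)` -/

theorem mapGL_jConjSL_mul_J (γ : SL(2, ℤ)) :
    (mapGL ℝ (jConjSL γ) : GL (Fin 2) ℝ) * J = J * (mapGL ℝ γ : GL (Fin 2) ℝ) := by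
  ext i j
  fin_cases i <;> fin_cases j <;>
    simp [jConjMat, Matrix.mul_apply, Fin.sum_univ_two]

theorem jConjSL_smul_J_smul (γ : SL(2, ℤ)) (z : ℍ) :
    (jConjSL γ) • (J • z) = J • (γ • z) := by
  show (mapGL ℝ (jConjSL γ) : GL (Fin 2) ℝ) • (J • z) = J • ((mapGL ℝ γ : GL (Fin 2) ℝ) • z)
  rw [← mul_smul, ← mul_smul, mapGL_jConjSL_mul_J]

theorem J_smul_J_smul (z : ℍ) : J • (J • z) = z := by
  rw [← mul_smul, ← sq, J_sq, one_smul]

theorem im_J_smul (z : ℍ) : (J • z).im = z.im := by
  rw [← coe_im, coe_J_smul]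
  simp

theorem tendsto_J_smul_atImInfty : Tendsto (fun w : ℍ => J • w) atImInfty atImInfty := by
  rw [atImInfty, tendsto_comap_iff]
  have : (UpperHalfPlane.im ∘ fun w : ℍ => J • w) = UpperHalfPlane.im := by
    funext w
    exact im_J_smul w
  rw [this]
  exact tendsto_comap

/-- `z ↦ conj (F (J z))` is holomorphic if `F` is. -/
theorem mdifferentiable_conj_comp_J {F : ℍ → ℂ} (hF : MDiff F) :
    MDiff (fun z : ℍ => conj (F (J • z))) := by
  have h := hF.slash 0 J
  have hfun : (F ∣[(0 : ℤ)] J) = fun z : ℍ => conj (F (J • z)) := by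
    funext z
    simp [ModularForm.slash_def]
  rwa [hfun] at h

variable {N : ℕ} [NeZero N]

/-- The involution applied to the period homomorphism, in terms of `J`. -/
theorem charInvolution_periodMap_apply (f : CuspForm (Gamma0 N) 2) (γ : Gamma0 N) (z : ℍ) :
    charInvolution N ℂ ℂ (periodMap N f) (Additive.ofMul γ) =
      prim f (J • ((γ : SL(2, ℤ)) • z)) - prim f (J • z) := by
  rw [charInvolution_apply, toMul_ofMul, periodMap_apply' f (jConjGamma0 N γ) (J • z),
    jConjGamma0_coe, jConjSL_smul_J_smul]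

/-- The value of `periodHomPair`. -/
theorem periodHomPair_apply (f g : CuspForm (Gamma0 N) 2) (γ : Gamma0 N) (z : ℍ) :
    periodHomPair N (f, g) (Additive.ofMul γ) =
      (prim f ((γ : SL(2, ℤ)) • z) - prim f z)
        + (prim f (J • ((γ : SL(2, ℤ)) • z)) - prim f (J • z))
        + ((prim g ((γ : SL(2, ℤ)) • z) - prim g z)
          - (prim g (J • ((γ : SL(2, ℤ)) • z)) - prim g (J • z))) := by
  rw [periodHomPair_eq]
  simp only [LinearMap.coprod_apply, LinearMap.comp_apply, LinearMap.add_apply,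
    LinearMap.sub_apply, LinearMap.id_apply, periodLin_apply, AddMonoidHom.add_apply,
    AddMonoidHom.sub_apply]
  rw [charInvolution_periodMap_apply f γ z, charInvolution_periodMap_apply g γ z,
    periodMap_apply' f γ z, periodMap_apply' g γ z]

/-- `prim f ∘ J ∘ δ` has a limit at `i∞`. -/
theorem prim_J_tendsto_smul (f : CuspForm (Gamma0 N) 2) (δ : SL(2, ℤ)) :
    ∃ L : ℂ, Tendsto (fun w : ℍ => prim f (J • (δ • w))) atImInfty (𝓝 L) := by
  obtain ⟨L, hL⟩ := prim_tendsto_smul f (jConjSL δ)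
  refine ⟨L, ?_⟩
  have hfun : (fun w : ℍ => prim f (J • (δ • w))) =
      (fun w : ℍ => prim f ((jConjSL δ) • w)) ∘ fun w : ℍ => J • w := by
    funext w
    simp only [Function.comp_apply]
    rw [jConjSL_smul_J_smul]
  rw [hfun]
  exact hL.comp tendsto_J_smul_atImInfty

/-- A constant function on `ℍ` has zero derivative. -/
theorem eq_zero_of_hasDerivH_of_const {F g : ℍ → ℂ} (h : HasDerivH F g)
    (hc : ∀ z w : ℍ, F z = F w) : g = 0 := by
  have h0 : HasDerivH F 0 := by
    have hF : F = fun _ => F I := funext fun z => hc z I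
    rw [hF]
    exact fun τ => hasDerivAt_const (τ : ℂ) (F I)
  exact eq_of_hasDerivH_left h h0

/-- **[ES-E]** injectivity of `periodHomPair`. -/
theorem periodHomPair_injective (N : ℕ) [NeZero N] :
    Function.Injective (periodHomPair N) := by
  rw [injective_iff_map_eq_zero]
  rintro ⟨f, g⟩ h
  -- the two holomorphic functions
  set A : ℍ → ℂ := prim f + prim g with hA
  set D : ℍ → ℂ := prim f - prim g with hD
  set B : ℍ → ℂ := fun z => conj (D (J • z)) with hB
  have hAd : HasDerivH A (⇑f + ⇑g) := hasDerivH_add (prim_hasDerivH f) (prim_hasDerivH g)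
  have hDd : HasDerivH D (⇑f - ⇑g) := hasDerivH_sub (prim_hasDerivH f) (prim_hasDerivH g)
  have hAm : MDiff A := HasDerivH.mdifferentiable hAd
  have hDm : MDiff D := HasDerivH.mdifferentiable hDd
  have hBm : MDiff B := mdifferentiable_conj_comp_J hDm
  -- invariance of `U = A + conj B`
  have hU : ∀ γ ∈ Gamma0 N, ∀ z : ℍ,
      A (γ • z) + conj (B (γ • z)) = A z + conj (B z) := by
    intro γ hγ z
    have h1 := periodHomPair_apply f g ⟨γ, hγ⟩ z
    rw [h] at h1
    simp only [AddMonoidHom.zero_apply] at h1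
    simp only [hA, hB, hD, Pi.add_apply, Pi.sub_apply, Complex.conj_conj]
    linear_combination -h1
  -- limits at the cusps
  have hAlim : ∀ δ : SL(2, ℤ), ∃ L : ℂ, Tendsto (fun w : ℍ => A (δ • w)) atImInfty (𝓝 L) := by
    intro δ
    obtain ⟨L₁, h₁⟩ := prim_tendsto_smul f δ
    obtain ⟨L₂, h₂⟩ := prim_tendsto_smul g δ
    exact ⟨L₁ + L₂, h₁.add h₂⟩
  have hBlim : ∀ δ : SL(2, ℤ), ∃ L : ℂ, Tendsto (fun w : ℍ => B (δ • w)) atImInfty (𝓝 L) := by
    intro δ
    obtain ⟨L₁, h₁⟩ := prim_J_tendsto_smul f δ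
    obtain ⟨L₂, h₂⟩ := prim_J_tendsto_smul g δ
    exact ⟨conj (L₁ - L₂), (Complex.continuous_conj.tendsto _).comp (h₁.sub h₂)⟩
  -- first application: `A + B`
  have hc1 : ∀ z w : ℍ, (A + B) z = (A + B) w := by
    refine const_of_re_invariant (Gamma0 N) (hAm.add hBm) ?_ ?_
    · intro γ hγ z
      have := congrArg Complex.re (hU γ hγ z)
      simpa using this
    · intro δ
      obtain ⟨L₁, h₁⟩ := hAlim δ
      obtain ⟨L₂, h₂⟩ := hBlim δ
      exact ⟨L₁ + L₂, h₁.add h₂⟩
  -- second application: `-i (A - B)`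
  have hc2 : ∀ z w : ℍ, ((-Complex.I) • (A - B)) z = ((-Complex.I) • (A - B)) w := by
    refine const_of_re_invariant (Gamma0 N) ((hAm.sub hBm).const_smul (-Complex.I)) ?_ ?_
    · intro γ hγ z
      have := congrArg Complex.im (hU γ hγ z)
      simp only [Complex.add_im, Complex.conj_im] at this
      simp only [Pi.smul_apply, Pi.sub_apply, smul_eq_mul, Complex.mul_re, Complex.neg_re,
        Complex.I_re, Complex.neg_im, Complex.I_im, Complex.sub_im, Complex.sub_re]
      linarith
    · intro δ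
      obtain ⟨L₁, h₁⟩ := hAlim δ
      obtain ⟨L₂, h₂⟩ := hBlim δ
      exact ⟨(-Complex.I) • (L₁ - L₂), (h₁.sub h₂).const_smul (-Complex.I)⟩
  -- hence `A` and `B` are constant
  have hcA : ∀ z w : ℍ, A z = A w := by
    intro z w
    have e1 := hc1 z w
    have e2 := hc2 z w
    simp only [Pi.add_apply, Pi.sub_apply, Pi.smul_apply, smul_eq_mul] at e1 e2
    have e3 : A z - B z = A w - B w := by
      have hI : (-Complex.I) ≠ 0 := neg_ne_zero.mpr Complex.I_ne_zero
      exact mul_left_cancel₀ hI e2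
    linear_combination (1 / 2 : ℂ) * e1 + (1 / 2 : ℂ) * e3
  have hcB : ∀ z w : ℍ, B z = B w := by
    intro z w
    have e1 := hc1 z w
    simp only [Pi.add_apply] at e1
    have e2 := hcA z w
    linear_combination e1 - e2
  have hcD : ∀ z w : ℍ, D z = D w := by
    intro z w
    have := hcB (J • z) (J • w)
    simp only [hB, J_smul_J_smul] at this
    exact (starRingEnd ℂ).injective this
  have hfg1 : (⇑f + ⇑g : ℍ → ℂ) = 0 := eq_zero_of_hasDerivH_of_const hAd hcA
  have hfg2 : (⇑f - ⇑g : ℍ → ℂ) = 0 := eq_zero_of_hasDerivH_of_const hDd hcD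
  have hf : f = 0 := by
    ext τ
    have e1 := congrFun hfg1 τ
    have e2 := congrFun hfg2 τ
    simp only [Pi.add_apply, Pi.sub_apply, Pi.zero_apply] at e1 e2
    show f τ = 0
    linear_combination (1 / 2 : ℂ) * e1 + (1 / 2 : ℂ) * e2
  have hg : g = 0 := by
    ext τ
    have e1 := congrFun hfg1 τ
    have e2 := congrFun hfg2 τ
    simp only [Pi.add_apply, Pi.sub_apply, Pi.zero_apply] at e1 e2
    show g τ = 0
    linear_combination (1 / 2 : ℂ) * e1 - (1 / 2 : ℂ) * e2
  rw [hf, hg]
  rfl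

end Fermat.Agent.ProgramR.ES
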