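/-
Program R, S21 track, package [ES-F] (helper2).
Assembly of the Eichler–Shimura statement S21 from
* injectivity of `periodHomPair N` (`ES/Injective.lean`),
* `range ≤ parabolicHoms` (`ES/Parabolic.lean`),
* `finrank parabolicHoms ≤ 2 g` (`ES/ParabolicDim.lean`, lead),
* the dimension formula `finrank S₂(Γ₀(N)) = genusFormula N` (S20) — taken as a HYPOTHESIS here.
-/
import Mathlib
import Fermat.Agent.ProgramR.ES.Injective
import Fermat.Agent.ProgramR.ES.ParabolicDim

set_option autoImplicit false

noncomputable section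

namespace Fermat.Agent.ProgramR.ES

open CongruenceSubgroup ModularCurve ModularCurve.Period Module
open scoped MatrixGroups ModularForm

/-- The space of weight-2 cusp forms on `Γ₀(N)` is finite dimensional (it embeds, via the period
map, into the finite dimensional space of parabolic homomorphisms). -/
theorem finiteDimensional_cuspForm (N : ℕ) [NeZero N] :
    FiniteDimensional ℂ (CuspForm (Gamma0 N) 2) := by
  have : FiniteDimensional ℂ ↥(parabolicHoms ℂ (Gamma0 N) ℂ) := (finrank_parabolicHoms_le N).1
  -- `f ↦ periodHomPair (f, 0)` is injective into `parabolicHoms`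
  let φ : CuspForm (Gamma0 N) 2 →ₗ[ℂ] ↥(parabolicHoms ℂ (Gamma0 N) ℂ) :=
    LinearMap.codRestrict (parabolicHoms ℂ (Gamma0 N) ℂ)
      ((periodHomPair N).comp (LinearMap.inl ℂ _ _))
      (fun f => range_periodHomPair_le N ⟨(f, 0), rfl⟩)
  have hφ : Function.Injective φ := by
    intro f g hfg
    have h1 : periodHomPair N (f, 0) = periodHomPair N (g, 0) := congrArg Subtype.val hfg
    have h2 := periodHomPair_injective N h1
    exact (Prod.mk.inj h2).1
  exact FiniteDimensional.of_injective φ hφ

/-- **[ES-F]** the Eichler–Shimura statement S21, given the dimension formula S20. -/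
theorem eichlerShimura_of_finrank (N : ℕ) [NeZero N]
    (hdim : (Module.finrank ℂ (CuspForm (Gamma0 N) 2) : ℚ) = ModularCurve.genusFormula N) :
    Function.Injective (periodHomPair N) ∧
      LinearMap.range (periodHomPair N) = parabolicHoms ℂ (Gamma0 N) ℂ := by
  refine ⟨periodHomPair_injective N, ?_⟩
  have : FiniteDimensional ℂ ↥(parabolicHoms ℂ (Gamma0 N) ℂ) := (finrank_parabolicHoms_le N).1
  have : FiniteDimensional ℂ (CuspForm (Gamma0 N) 2) := finiteDimensional_cuspForm N
  refine Submodule.eq_of_le_of_finrank_le (range_periodHomPair_le N) ?_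
  have h1 : finrank ℂ ↥(LinearMap.range (periodHomPair N)) =
      finrank ℂ (CuspForm (Gamma0 N) 2 × CuspForm (Gamma0 N) 2) :=
    LinearMap.finrank_range_of_inj (periodHomPair_injective N)
  have h2 : finrank ℂ (CuspForm (Gamma0 N) 2 × CuspForm (Gamma0 N) 2) =
      2 * finrank ℂ (CuspForm (Gamma0 N) 2) := by
    rw [Module.finrank_prod]
    ring
  rw [h1, h2]
  exact (finrank_parabolicHoms_le N).2 _ hdim

/-- Unconditional upper bound: `dim S₂(Γ₀(N)) ≤ g` for `g = genusFormula N` (injectivity of the
period map and the bound `dim parabolicHoms ≤ 2 g`).  So S20 only needs the lower bound. -/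
theorem finrank_cuspForm_le (N : ℕ) [NeZero N] (g : ℕ)
    (hg : (g : ℚ) = ModularCurve.genusFormula N) :
    Module.finrank ℂ (CuspForm (Gamma0 N) 2) ≤ g := by
  have : FiniteDimensional ℂ ↥(parabolicHoms ℂ (Gamma0 N) ℂ) := (finrank_parabolicHoms_le N).1
  have : FiniteDimensional ℂ (CuspForm (Gamma0 N) 2) := finiteDimensional_cuspForm N
  have h1 : finrank ℂ ↥(LinearMap.range (periodHomPair N)) =
      finrank ℂ (CuspForm (Gamma0 N) 2 × CuspForm (Gamma0 N) 2) :=
    LinearMap.finrank_range_of_inj (periodHomPair_injective N)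
  have h2 : finrank ℂ (CuspForm (Gamma0 N) 2 × CuspForm (Gamma0 N) 2) =
      2 * finrank ℂ (CuspForm (Gamma0 N) 2) := by
    rw [Module.finrank_prod]
    ring
  have h3 : finrank ℂ ↥(LinearMap.range (periodHomPair N)) ≤
      finrank ℂ ↥(parabolicHoms ℂ (Gamma0 N) ℂ) :=
    Submodule.finrank_mono (range_periodHomPair_le N)
  have h4 := (finrank_parabolicHoms_le N).2 g hg
  omega

/-- S20 from the lower bound alone. -/
theorem finrank_cuspForm_eq_of_le (N : ℕ) [NeZero N] (g : ℕ)
    (hg : (g : ℚ) = ModularCurve.genusFormula N)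
    (hle : g ≤ Module.finrank ℂ (CuspForm (Gamma0 N) 2)) :
    (Module.finrank ℂ (CuspForm (Gamma0 N) 2) : ℚ) = ModularCurve.genusFormula N := by
  rw [← hg]
  exact_mod_cast le_antisymm (finrank_cuspForm_le N g hg) hle

end Fermat.Agent.ProgramR.ES
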