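import Mathlib
import Fermat.Agent.ProgramR.Analytic.HolRing

/-!
# A maximum principle on `Γ \ ℍ*` (S21, analytic side)

`A : ℍ → ℂ` holomorphic, `Re A` invariant under a finite index subgroup `Γ ≤ SL(2,ℤ)`, and
`A ∘ δ` has a limit at `i∞` for every `δ ∈ SL(2,ℤ)`.  Then `A` is constant.
-/

set_option autoImplicit false

namespace Fermat.Agent.ProgramR.ES

open UpperHalfPlane Filter Topology Complex
open scoped Manifold MatrixGroups Modular

/-! ### Holomorphic functions with constant exponential -/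

/-- `C ∘ ofComplex` is differentiable on the upper half plane set. -/
lemma differentiableOn_comp_ofComplex {C : ℍ → ℂ} (hC : MDiff C) :
    DifferentiableOn ℂ (C ∘ ofComplex) {w : ℂ | 0 < w.im} :=
  UpperHalfPlane.mdifferentiable_iff.mp hC

/-- A holomorphic function on `ℍ` whose exponential is constant is constant. -/
lemma const_of_exp_const {C : ℍ → ℂ} (hC : MDiff C)
    (h : ∀ z w : ℍ, Complex.exp (C z) = Complex.exp (C w)) : ∀ z w : ℍ, C z = C w := by
  set U : Set ℂ := {w : ℂ | 0 < w.im} with hU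
  have hUo : IsOpen U := isOpen_upperHalfPlaneSet
  have hconv : Convex ℝ U := convex_halfSpace_im_gt 0
  have hd : DifferentiableOn ℂ (C ∘ ofComplex) U := differentiableOn_comp_ofComplex hC
  have hderiv : Set.EqOn (deriv (C ∘ ofComplex)) 0 U := by
    intro w hw
    have hdw : DifferentiableAt ℂ (C ∘ ofComplex) w := (hd w hw).differentiableAt (hUo.mem_nhds hw)
    have h1 : HasDerivAt (fun x => Complex.exp ((C ∘ ofComplex) x))
        (Complex.exp ((C ∘ ofComplex) w) * deriv (C ∘ ofComplex) w) w :=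
      hdw.hasDerivAt.cexp
    have h2 : (fun x => Complex.exp ((C ∘ ofComplex) x)) =ᶠ[𝓝 w]
        fun _ => Complex.exp ((C ∘ ofComplex) w) := by
      filter_upwards [hUo.mem_nhds hw] with x hx
      exact h _ _
    have h3 : HasDerivAt (fun x => Complex.exp ((C ∘ ofComplex) x)) 0 w :=
      (hasDerivAt_const w _).congr_of_eventuallyEq h2
    have h4 := h1.unique h3
    rcases mul_eq_zero.mp h4 with h5 | h5
    · exact absurd h5 (Complex.exp_ne_zero _)
    · exact h5
  intro z w
  have := hUo.is_const_of_deriv_eq_zero hconv.isPreconnected hd hderiv z.im_pos w.im_pos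
  simpa using this

/-- If the real part of a holomorphic function on `ℍ` attains its maximum, the function is
constant. -/
lemma const_of_re_le {C : ℍ → ℂ} (hC : MDiff C) (z₀ : ℍ) (h : ∀ z : ℍ, (C z).re ≤ (C z₀).re) :
    ∀ z w : ℍ, C z = C w := by
  apply const_of_exp_const hC
  set U : Set ℂ := {w : ℂ | 0 < w.im} with hU
  have hUo : IsOpen U := isOpen_upperHalfPlaneSet
  have hconv : Convex ℝ U := convex_halfSpace_im_gt 0
  have hd : DifferentiableOn ℂ (fun x => Complex.exp ((C ∘ ofComplex) x)) U :=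
    (differentiableOn_comp_ofComplex hC).cexp
  have hmax : IsMaxOn (norm ∘ fun x => Complex.exp ((C ∘ ofComplex) x)) U (z₀ : ℂ) := by
    intro x hx
    simp only [Set.mem_setOf_eq, Function.comp_apply, Complex.norm_exp]
    apply Real.exp_le_exp.mpr
    have := h (ofComplex x)
    simpa using this
  have heq := Complex.eqOn_of_isPreconnected_of_isMaxOn_norm hconv.isPreconnected hUo hd
    z₀.im_pos hmax
  have key : ∀ z : ℍ, Complex.exp (C z) = Complex.exp (C z₀) := by
    intro z
    have := heq z.im_pos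
    simpa using this
  intro z w
  rw [key z, key w]

/-! ### The supremum over the fundamental domain -/

/-- The truncated fundamental domain is compact. -/
lemma isCompact_fd_inter (Y : ℝ) : IsCompact {w : ℍ | w ∈ 𝒟 ∧ w.im ≤ Y} := by
  set K' : Set ℂ := {z : ℂ | 1 ≤ Complex.normSq z ∧ |z.re| ≤ 1 / 2 ∧ 1 / 2 ≤ z.im ∧ z.im ≤ Y}
    with hK'
  have hclosed : IsClosed K' := by
    have h1 : IsClosed {z : ℂ | 1 ≤ Complex.normSq z} :=
      isClosed_le continuous_const Complex.continuous_normSq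
    have h2 : IsClosed {z : ℂ | |z.re| ≤ 1 / 2} :=
      isClosed_le (continuous_abs.comp Complex.continuous_re) continuous_const
    have h3 : IsClosed {z : ℂ | 1 / 2 ≤ z.im} := isClosed_le continuous_const Complex.continuous_im
    have h4 : IsClosed {z : ℂ | z.im ≤ Y} := isClosed_le Complex.continuous_im continuous_const
    exact h1.inter (h2.inter (h3.inter h4))
  have hbdd : Bornology.IsBounded K' := by
    rw [isBounded_iff_forall_norm_le]
    refine ⟨1 / 2 + |Y|, fun z hz => ?_⟩
    obtain ⟨_, h2, h3, h4⟩ := hz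
    calc ‖z‖ ≤ |z.re| + |z.im| := Complex.norm_le_abs_re_add_abs_im z
      _ ≤ 1 / 2 + |Y| := by
        have : |z.im| ≤ |Y| := by
          rw [abs_of_nonneg (by linarith : (0 : ℝ) ≤ z.im)]
          exact h4.trans (le_abs_self Y)
        linarith
  have hcomp : IsCompact K' := Metric.isCompact_of_isClosed_isBounded hclosed hbdd
  have hsub : K' ⊆ Set.range ((↑) : ℍ → ℂ) := by
    intro z hz
    exact ⟨⟨z, by linarith [hz.2.2.1]⟩, rfl⟩
  have heq : {w : ℍ | w ∈ 𝒟 ∧ w.im ≤ Y} = ((↑) : ℍ → ℂ) ⁻¹' K' := by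
    ext w
    simp only [Set.mem_setOf_eq, Set.mem_preimage, hK', ModularGroup.fd]
    constructor
    · rintro ⟨⟨h1, h2⟩, h3⟩
      refine ⟨h1, h2, ?_, h3⟩
      have hn : Complex.normSq (w : ℂ) = w.re ^ 2 + w.im ^ 2 := by
        rw [Complex.normSq_apply]; simp [pow_two]
      have hre : w.re ^ 2 ≤ 1 / 4 := by
        have := abs_le.mp h2
        nlinarith [this.1, this.2]
      have him : 0 < w.im := w.im_pos
      show 1 / 2 ≤ w.im
      nlinarith
    · rintro ⟨h1, h2, _, h4⟩
      exact ⟨⟨h1, h2⟩, h4⟩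
  rw [heq]
  exact (UpperHalfPlane.isEmbedding_coe.isInducing.isCompact_preimage_iff hsub).mpr hcomp

/-- A continuous function on `ℍ` with a limit at `i∞` is bounded above on the fundamental
domain by a value which is attained there or equals the limit. -/
lemma exists_max_fd {v : ℍ → ℝ} (hv : Continuous v) {ℓ : ℝ}
    (hlim : Tendsto v atImInfty (𝓝 ℓ)) :
    ∃ m : ℝ, (∀ w ∈ 𝒟, v w ≤ m) ∧ ((∃ w ∈ 𝒟, v w = m) ∨ m = ℓ) := by
  by_cases hcase : ∀ w ∈ 𝒟, v w ≤ ℓ
  · exact ⟨ℓ, hcase, Or.inr rfl⟩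
  push_neg at hcase
  obtain ⟨w₀, hw₀, hlt⟩ := hcase
  have hev : ∀ᶠ w in atImInfty, v w < v w₀ := hlim.eventually (gt_mem_nhds hlt)
  obtain ⟨Y, hY⟩ := (atImInfty_mem _).mp hev
  have hcomp := isCompact_fd_inter Y
  have hw₀Y : w₀.im ≤ Y := by
    by_contra hcon
    push_neg at hcon
    have h1 : v w₀ < v w₀ := hY w₀ hcon.le
    exact lt_irrefl _ h1
  have hne : ({w : ℍ | w ∈ 𝒟 ∧ w.im ≤ Y}).Nonempty := ⟨w₀, hw₀, hw₀Y⟩
  obtain ⟨ws, hws, hmax⟩ := hcomp.exists_isMaxOn hne hv.continuousOn
  refine ⟨v ws, fun w hw => ?_, Or.inl ⟨ws, hws.1, rfl⟩⟩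
  by_cases hwY : w.im ≤ Y
  · exact hmax ⟨hw, hwY⟩
  · push_neg at hwY
    have h1 : v w < v w₀ := hY w hwY.le
    exact h1.le.trans (hmax ⟨hw₀, hw₀Y⟩)

/-! ### The cusp case -/

lemma tendsto_T_zpow_smul_atImInfty (n : ℤ) :
    Tendsto (fun w : ℍ => (ModularGroup.T ^ n : SL(2, ℤ)) • w) atImInfty atImInfty := by
  rw [atImInfty, tendsto_comap_iff]
  have : (UpperHalfPlane.im ∘ fun w : ℍ => (ModularGroup.T ^ n : SL(2, ℤ)) • w)
      = UpperHalfPlane.im := by
    funext w
    exact ModularGroup.im_T_zpow_smul w n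
  rw [this]
  exact tendsto_comap

/-- MDifferentiability of `w ↦ A (δ • w)`. -/
lemma mdiff_comp_smul {A : ℍ → ℂ} (hA : MDiff A) (δ : SL(2, ℤ)) :
    MDiff (fun w : ℍ => A (δ • w)) :=
  (Hol.slComp δ ⟨A, hA⟩).2

/-- If `Re B` is invariant under `T ^ n` and `B` has a limit at `i∞`, then `B` is invariant. -/
lemma periodic_of_re_periodic {B : ℍ → ℂ} (hB : MDiff B) (n : ℤ)
    (hre : ∀ w : ℍ, (B ((ModularGroup.T ^ n : SL(2, ℤ)) • w)).re = (B w).re) {L : ℂ}
    (hlim : Tendsto B atImInfty (𝓝 L)) :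
    ∀ w : ℍ, B ((ModularGroup.T ^ n : SL(2, ℤ)) • w) = B w := by
  set C : ℍ → ℂ := fun w => B ((ModularGroup.T ^ n : SL(2, ℤ)) • w) - B w with hCdef
  have hC : MDiff C := (mdiff_comp_smul hB _).sub hB
  have hCre : ∀ w, (C w).re = 0 := by
    intro w
    simp only [hCdef, Complex.sub_re, hre w, sub_self]
  have hconst := const_of_re_le hC UpperHalfPlane.I (fun z => by rw [hCre z, hCre _])
  have hlimC : Tendsto C atImInfty (𝓝 (L - L)) :=
    (hlim.comp (tendsto_T_zpow_smul_atImInfty n)).sub hlim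
  have hlimC' : Tendsto C atImInfty (𝓝 (C UpperHalfPlane.I)) := by
    have : C = fun _ => C UpperHalfPlane.I := funext fun w => hconst w _
    rw [this]
    exact tendsto_const_nhds
  have h0 : C UpperHalfPlane.I = 0 := by
    have := tendsto_nhds_unique hlimC' hlimC
    rw [sub_self] at this
    exact this
  intro w
  have := hconst w UpperHalfPlane.I
  rw [h0] at this
  exact sub_eq_zero.mp this

/-- The cusp case of the maximum principle: a `T ^ n`-periodic holomorphic function whose real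
part is bounded by the real part of its limit at `i∞` is constant. -/
lemma const_of_re_le_limit {B : ℍ → ℂ} (hB : MDiff B) (n : ℕ) (hn : 0 < n)
    (hper : ∀ w : ℍ, B ((ModularGroup.T ^ (n : ℤ) : SL(2, ℤ)) • w) = B w) {L : ℂ}
    (hlim : Tendsto B atImInfty (𝓝 L)) (hle : ∀ w : ℍ, (B w).re ≤ L.re) :
    ∀ z w : ℍ, B z = B w := by
  set f : ℂ → ℂ := B ∘ ofComplex with hf
  have hn' : (0 : ℝ) < (n : ℝ) := by exact_mod_cast hn
  have hfper : Function.Periodic f (n : ℝ) := by
    intro z
    by_cases hz : 0 < z.im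
    · have h1 : ofComplex (z + ((n : ℝ) : ℂ)) =
          (ModularGroup.T ^ (n : ℤ) : SL(2, ℤ)) • (ofComplex z) := by
        apply UpperHalfPlane.ext
        rw [ModularGroup.coe_T_zpow_smul_eq, ofComplex_apply_of_im_pos hz,
          ofComplex_apply_of_im_pos (by simpa using hz)]
        simp
      show B (ofComplex (z + ((n : ℝ) : ℂ))) = B (ofComplex z)
      rw [h1, hper]
    · have hz' : z.im ≤ 0 := not_lt.mp hz
      have hz'' : (z + ((n : ℝ) : ℂ)).im ≤ 0 := by simpa using hz'
      show B (ofComplex (z + ((n : ℝ) : ℂ))) = B (ofComplex z)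
      rw [ofComplex_apply_of_im_nonpos hz', ofComplex_apply_of_im_nonpos hz'']
  have hfdiff : ∀ z : ℂ, 0 < z.im → DifferentiableAt ℂ f z := fun z hz =>
    ((differentiableOn_comp_ofComplex hB) z hz).differentiableAt
      (isOpen_upperHalfPlaneSet.mem_nhds hz)
  have hflim : Tendsto f (comap Complex.im atTop) (𝓝 L) :=
    hlim.comp tendsto_comap_im_ofComplex
  have hfhol : ∀ᶠ z in comap Complex.im atTop, DifferentiableAt ℂ f z := by
    have : ∀ᶠ z : ℂ in comap Complex.im atTop, 1 ≤ z.im :=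
      tendsto_comap.eventually (eventually_ge_atTop 1)
    filter_upwards [this] with z hz
    exact hfdiff z (by linarith)
  have hfbdd : BoundedAtFilter (comap Complex.im atTop) f := by
    exact hflim.isBigO_one ℝ
  set Φ : ℂ → ℂ := Function.Periodic.cuspFunction (n : ℝ) f with hΦ
  have hne : (comap Complex.im atTop : Filter ℂ).NeBot := by
    apply Filter.NeBot.comap_of_surj inferInstance
    intro y
    exact ⟨⟨0, y⟩, rfl⟩
  have hΦ0 : Φ 0 = L := by
    have h1 := Function.Periodic.tendsto_at_I_inf hn' hfper hfhol hfbdd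
    exact tendsto_nhds_unique h1 hflim
  have hΦq : ∀ z : ℍ, Φ (Function.Periodic.qParam (n : ℝ) (z : ℂ)) = B z := by
    intro z
    have := Function.Periodic.eq_cuspFunction hn'.ne' hfper (z : ℂ)
    rw [hΦ, this]
    simp [hf]
  -- differentiability on the unit disc
  have hΦdiff : DifferentiableOn ℂ Φ (Metric.ball 0 1) := by
    intro q hq
    by_cases hq0 : q = 0
    · rw [hq0]
      exact (Function.Periodic.differentiableAt_cuspFunction_zero hn' hfper hfhol
        hfbdd).differentiableWithinAt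
    · have hq1 : ‖q‖ < 1 := by simpa using hq
      set z := Function.Periodic.invQParam (n : ℝ) q with hz
      have hzim : 0 < z.im := by
        rw [hz, Function.Periodic.im_invQParam]
        have hlog : Real.log ‖q‖ < 0 := Real.log_neg (norm_pos_iff.mpr hq0) hq1
        have : -(n : ℝ) / (2 * Real.pi) < 0 := by
          apply div_neg_of_neg_of_pos (by linarith) (by positivity)
        exact mul_pos_of_neg_of_neg this hlog
      have hqz : Function.Periodic.qParam (n : ℝ) z = q :=
        Function.Periodic.qParam_right_inv hn'.ne' hq0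
      have := Function.Periodic.differentiableAt_cuspFunction hn'.ne' hfper (hfdiff z hzim)
      rw [hqz] at this
      exact this.differentiableWithinAt
  -- the real part bound on the disc
  have hΦre : ∀ q ∈ Metric.ball (0 : ℂ) 1, (Φ q).re ≤ (Φ 0).re := by
    intro q hq
    by_cases hq0 : q = 0
    · rw [hq0]
    · rw [hΦ0, hΦ, Function.Periodic.cuspFunction_eq_of_nonzero _ _ hq0]
      exact hle _
  -- maximum modulus for `exp ∘ Φ`
  have hd : DifferentiableOn ℂ (fun q => Complex.exp (Φ q)) (Metric.ball 0 1) := hΦdiff.cexp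
  have hmax : IsMaxOn (norm ∘ fun q => Complex.exp (Φ q)) (Metric.ball 0 1) (0 : ℂ) := by
    intro q hq
    simp only [Set.mem_setOf_eq, Function.comp_apply, Complex.norm_exp]
    exact Real.exp_le_exp.mpr (hΦre q hq)
  have heq := Complex.eqOn_of_isPreconnected_of_isMaxOn_norm
    (convex_ball (0 : ℂ) 1).isPreconnected Metric.isOpen_ball hd (Metric.mem_ball_self one_pos) hmax
  apply const_of_exp_const hB
  have key : ∀ z : ℍ, Complex.exp (B z) = Complex.exp (Φ 0) := by
    intro z
    have hmem : Function.Periodic.qParam (n : ℝ) (z : ℂ) ∈ Metric.ball (0 : ℂ) 1 := by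
      rw [mem_ball_zero_iff]
      exact Function.Periodic.norm_qParam_lt_one hn' z.im_pos
    have := heq hmem
    simp only [Function.const_apply] at this
    rw [hΦq] at this
    exact this
  intro z w
  rw [key z, key w]

/-! ### The maximum principle -/

/-- **Maximum principle on `Γ \ ℍ*`**: a holomorphic function on `ℍ` whose real part is invariant
under a finite index subgroup `Γ ≤ SL(2,ℤ)` and all of whose `SL(2,ℤ)`-translates have limits at
`i∞` is constant. -/
theorem const_of_re_invariant (Γ : Subgroup SL(2, ℤ)) [Γ.FiniteIndex] {A : ℍ → ℂ} (hA : MDiff A)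
    (hinv : ∀ γ ∈ Γ, ∀ z : ℍ, (A (γ • z)).re = (A z).re)
    (hlim : ∀ δ : SL(2, ℤ), ∃ L : ℂ, Tendsto (fun w : ℍ => A (δ • w)) atImInfty (𝓝 L)) :
    ∀ z w : ℍ, A z = A w := by
  classical
  -- coset representatives
  let r : SL(2, ℤ) ⧸ Γ → SL(2, ℤ) := fun q => (Quotient.out q)⁻¹
  have hr : ∀ g : SL(2, ℤ), ∃ γ ∈ Γ, g⁻¹ = γ * r (QuotientGroup.mk g) := by
    intro g
    have h1 : (QuotientGroup.mk (Quotient.out (QuotientGroup.mk g : SL(2, ℤ) ⧸ Γ)) :
        SL(2, ℤ) ⧸ Γ) = QuotientGroup.mk g := QuotientGroup.out_eq' _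
    have h2 := QuotientGroup.eq.mp h1
    refine ⟨_, Γ.inv_mem h2, ?_⟩
    simp only [r]
    group
  choose L hL using hlim
  have hAc : Continuous A := hA.continuous
  have hv : ∀ q : SL(2, ℤ) ⧸ Γ, Continuous fun w : ℍ => (A (r q • w)).re := fun q =>
    Complex.continuous_re.comp (mdiff_comp_smul hA (r q)).continuous
  have hvl : ∀ q : SL(2, ℤ) ⧸ Γ,
      Tendsto (fun w : ℍ => (A (r q • w)).re) atImInfty (𝓝 (L (r q)).re) := fun q =>
    (Complex.continuous_re.tendsto _).comp (hL (r q))
  choose m hm1 hm2 using fun q => exists_max_fd (hv q) (hvl q)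
  obtain ⟨q₀, hq₀⟩ := Finite.exists_max m
  -- the global bound
  have hbound : ∀ z : ℍ, (A z).re ≤ m q₀ := by
    intro z
    obtain ⟨g, hg⟩ := ModularGroup.exists_smul_mem_fd z
    obtain ⟨γ, hγ, hgγ⟩ := hr g
    have hz : z = γ • (r (QuotientGroup.mk g) • (g • z)) := by
      rw [← mul_smul, ← mul_smul, ← hgγ, inv_mul_cancel, one_smul]
    rw [hz, hinv γ hγ]
    exact (hm1 _ _ hg).trans (hq₀ _)
  rcases hm2 q₀ with ⟨w₀, _, hw₀⟩ | hcusp
  · -- the maximum is attained
    apply const_of_re_le hA (r q₀ • w₀)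
    intro z
    rw [hw₀]
    exact hbound z
  · -- the maximum is a cusp value
    set δ := r q₀ with hδ
    set B : ℍ → ℂ := fun w => A (δ • w) with hBdef
    have hB : MDiff B := mdiff_comp_smul hA δ
    obtain ⟨n, hn, -, hmem⟩ := Subgroup.exists_pow_mem_of_index_ne_zero
      (Subgroup.FiniteIndex.index_ne_zero (H := Γ)) (δ * ModularGroup.T * δ⁻¹)
    have hconj : (δ * ModularGroup.T * δ⁻¹) ^ n = δ * ModularGroup.T ^ (n : ℤ) * δ⁻¹ := by
      rw [conj_pow, zpow_natCast]
    have hBre : ∀ w : ℍ, (B ((ModularGroup.T ^ (n : ℤ) : SL(2, ℤ)) • w)).re = (B w).re := by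
      intro w
      have h1 : δ • ((ModularGroup.T ^ (n : ℤ) : SL(2, ℤ)) • w) =
          (δ * ModularGroup.T ^ (n : ℤ) * δ⁻¹) • (δ • w) := by
        rw [← mul_smul, ← mul_smul, inv_mul_cancel_right]
      show (A (δ • ((ModularGroup.T ^ (n : ℤ) : SL(2, ℤ)) • w))).re = (A (δ • w)).re
      rw [h1, ← hconj]
      exact hinv _ hmem _
    have hper := periodic_of_re_periodic hB (n : ℤ) hBre (hL δ)
    have hle : ∀ w : ℍ, (B w).re ≤ (L δ).re := by
      intro w
      rw [← hcusp]
      exact hbound _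
    have hBconst := const_of_re_le_limit hB n hn hper (hL δ) hle
    intro z w
    have hz : A z = B (δ⁻¹ • z) := by
      show A z = A (δ • (δ⁻¹ • z))
      rw [smul_inv_smul]
    have hw : A w = B (δ⁻¹ • w) := by
      show A w = A (δ • (δ⁻¹ • w))
      rw [smul_inv_smul]
    rw [hz, hw]
    exact hBconst _ _

end Fermat.Agent.ProgramR.ES
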